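import Fermat.Agent.Top.Final
import Fermat.Agent.RT.Lifting.Minimal.Main
import Fermat.Agent.RT.Lifting.AtP.Tres

/-!
# The statements remaining in `Top/Final.lean` hold
-/

set_option autoImplicit false

noncomputable section

namespace Fermat.Agent.Top

theorem minimalInput : MinimalInput :=
  fun _ _ _ _ _ _ _ _ _ _ _ _ _ _ _ _ _ _ _ hd _ _ C good =>
    haveI := NeZero.mk hd.squarefree.ne_zero
    RT.Lifting.minimalProperty hd C good

theorem remaining : Remaining :=
  ⟨minimalInput, RT.Lifting.AtP.tresOfMultiplicative⟩

/-- Modularity lifting at `3` and `5` from a squarefree residual level. -/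
theorem liftingSquarefreeInput : LiftingSquarefreeInput :=
  liftingSquarefreeInput_of_remaining remaining

end Fermat.Agent.Top
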