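import Fermat.Agent.RT.Frey.Inputs

/-!
# Inputs of the endgame through the two-adic modularity theorem

`Good` is the local condition on the curves which are modular by the two-adic theorem; it stays
abstract here. `SwitchChain Good W` says that `W` is joined to such a curve by steps of `3`- and
`5`-congruences at which modularity lifting applies: at the prime `p` of a step good reduction is
kept, and at `p = 3` multiplicative reduction is très ramifiée unless the next curve is good at `3`.
-/

set_option autoImplicit false

open WeierstrassCurve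

namespace Fermat.Agent.Top

/-- Two models with the same traces modulo `p` at their common good primes. -/
def Congruent (p : ℕ) (W W' : WeierstrassCurve ℤ) : Prop :=
  ∀ ℓ : ℕ, ℓ.Prime → W.IsGoodPrimeFor ℓ → W'.IsGoodPrimeFor ℓ → ℓ ≠ p →
    (p : ℤ) ∣ W'.apOfModel ℓ - W.apOfModel ℓ

/-- If `W` has multiplicative reduction at `3`, its mod `3` representation is très ramifiée. -/
def TresAtThree (W : WeierstrassCurve ℤ) : Prop :=
  (3 : ℤ) ∣ W.Δ → ¬ 3 ∣ padicValInt 3 W.Δ

/-- The two-adic theorem: a semistable model satisfying `Good` is modular of its conductor level. -/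
def TwoAdicModularityInput (Good : WeierstrassCurve ℤ → Prop) : Prop :=
  ∀ W : WeierstrassCurve ℤ, W.Δ ≠ 0 → W.IsSemistableModel → Good W →
    Mlc1IsModularModelOfExactConductorLevel W

/-- A chain of `3`- and `5`-congruences ending at a curve satisfying `Good`; modularity propagates
backwards along it by modularity lifting. -/
inductive SwitchChain (Good : WeierstrassCurve ℤ → Prop) : WeierstrassCurve ℤ → Prop
  | base {W : WeierstrassCurve ℤ} (hΔ : W.Δ ≠ 0) (hW : W.IsSemistableModel) (hgood : Good W) :
      SwitchChain Good W
  | step {W W' : WeierstrassCurve ℤ} (p : ℕ) (hp : p = 3 ∨ p = 5) (hΔ : W.Δ ≠ 0)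
      (hW : W.IsSemistableModel) (hirr : W.ModRepIsIrreducible p) (hcong : Congruent p W W')
      (hkeep : W.IsGoodPrimeFor p → W'.IsGoodPrimeFor p)
      (htres : p = 3 → ¬ W'.IsGoodPrimeFor 3 → TresAtThree W)
      (hnext : SwitchChain Good W') : SwitchChain Good W

/-- The switches for the models of the Frey curves (this is what Fermat's Last Theorem needs). -/
def FreyChainInput (Good : WeierstrassCurve ℤ → Prop) : Prop :=
  ∀ P : FreyPackage, SwitchChain Good P.freyCurveInt

/-- The switches for milestone 50: every semistable model with irreducible mod `3` representation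
is congruent modulo `3` to the origin of a chain. -/
def ResidualSwitchInput (Good : WeierstrassCurve ℤ → Prop) : Prop :=
  ∀ W : WeierstrassCurve ℤ, W.Δ ≠ 0 → W.IsSemistableModel → W.ModRepIsIrreducible 3 →
    ∃ W' : WeierstrassCurve ℤ, Congruent 3 W W' ∧ SwitchChain Good W'

/-- The switches for every semistable model. -/
def ChainInput (Good : WeierstrassCurve ℤ → Prop) : Prop :=
  ∀ W : WeierstrassCurve ℤ, W.Δ ≠ 0 → W.IsSemistableModel → SwitchChain Good W

/-- Modularity lifting at `3` and `5` from a squarefree residual level, not divisible by `p` at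
good reduction, and with très ramifiée multiplicative reduction at `3` when `p = 3` divides the level. -/
def LiftingSquarefreeInput : Prop :=
  ∀ (p : ℕ) (_ : p = 3 ∨ p = 5) (W : WeierstrassCurve ℤ) (_ : W.Δ ≠ 0)
    (_ : W.IsSemistableModel) (_ : W.ModRepIsIrreducible p) (M₀ : ℕ) [NeZero M₀]
    (_ : W.IsResiduallyModularOfLevel p M₀) (_ : Squarefree M₀)
    (_ : W.IsGoodPrimeFor p → ¬ p ∣ M₀) (_ : p = 3 → 3 ∣ M₀ → TresAtThree W),
    Mlc1IsModularModelOfExactConductorLevel W

/-- The statement of milestone 9. -/
def IrreducibleInput : Prop :=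
  ∀ P : FreyPackage, WeierstrassCurve.Affine.Point.GaloisRepIsIrreducible
    (K := AlgebraicClosure ℚ) ℚ P.freyCurve P.p

/-- The lifting statement of milestone 59 gives the squarefree one. -/
theorem liftingSquarefree_of_lifting (h : RT.Frey.LiftingInput) : LiftingSquarefreeInput := by
  intro p hp W hΔ hW hirr M₀ _ hres hsq _ _
  have h2 : ∀ q : ℕ, q.Prime → ¬ q ^ 2 ∣ M₀ := fun q hq hd =>
    hq.not_isUnit (hsq q (by rwa [← sq]))
  exact h p hp W hΔ hW hirr M₀ hres (h2 p (by rcases hp with rfl | rfl <;> norm_num))
    fun q hq _ hd => h2 q hq ((pow_dvd_pow q (by norm_num)).trans hd)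

end Fermat.Agent.Top
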