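import Fermat.Prelude.Def_FLTPrelim_Modularity
import Mathlib.NumberTheory.Padics.PadicVal.Basic

/-!
# The curves of the two-adic theorem (class C of the blueprint)
-/

set_option autoImplicit false

namespace Fermat.Agent.Top

/-- Negative discriminant congruent to `5` modulo `8`, odd trace at `2`, and odd valuation of the
discriminant at every bad prime. -/
structure IsTwoAdicGood (W : WeierstrassCurve ℤ) : Prop where
  Δ_neg : W.Δ < 0
  Δ_emod_eight : W.Δ % 8 = 5
  ap_two_odd : Odd (W.apOfModel 2)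
  odd_valuation : ∀ q : ℕ, q.Prime → (q : ℤ) ∣ W.Δ → Odd (padicValInt q W.Δ)

theorem IsTwoAdicGood.Δ_ne_zero {W : WeierstrassCurve ℤ} (h : IsTwoAdicGood W) : W.Δ ≠ 0 :=
  h.Δ_neg.ne

theorem IsTwoAdicGood.isGoodPrimeFor_two {W : WeierstrassCurve ℤ} (h : IsTwoAdicGood W) :
    W.IsGoodPrimeFor 2 := fun h2 => by
  have h2' : (2 : ℤ) ∣ W.Δ := h2
  have := h.Δ_emod_eight
  omega

end Fermat.Agent.Top
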