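import Fermat.Prelude.Def_WeierstrassCurve_ConductorLevel
import Fermat.Agent.Top.Inputs
import Fermat.Agent.S51
import Fermat.Agent.S52
import Fermat.Agent.RT.Frey.Modular

/-!
# Modularity along a chain of switches, and the milestones which follow from it

From the two-adic theorem, the switches and modularity lifting at a squarefree level: origins of
chains are modular of their conductor level, which gives milestones 50, 58, 59, 60.
-/

set_option autoImplicit false

open WeierstrassCurve WeierstrassCurve.Affine WeierstrassCurve.Affine.Point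
open CuspForm
open scoped WeierstrassCurve.Affine

namespace Fermat.Agent.Top

variable {Good : WeierstrassCurve ℤ → Prop}

theorem isResiduallyModular_of_congruent {p : ℕ} (hp : p.Prime) {W W' : WeierstrassCurve ℤ}
    (hcong : Congruent p W W') (hW' : Mlc1IsModularModelOfExactConductorLevel W') :
    ∃ N : ℕ, 0 < N ∧ Squarefree N ∧ (p ∣ N ↔ (p : ℤ) ∣ W'.Δ) ∧
      W.IsResiduallyModularOfLevel p N := by
  obtain ⟨N, hN, hsq, hsupp, f, hf, hfW⟩ := hW'
  obtain ⟨𝔪, h𝔪, hpm⟩ := FLTPrelim.exists_maximalIdeal_natCast_prime_mem hp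
  refine ⟨N, hN, hsq, hsupp p hp, f, 𝔪, hf, h𝔪, hpm, fun ℓ hℓ hgood hℓN hℓp => ?_⟩
  have hgood' : W'.IsGoodPrimeFor ℓ := fun h => hℓN ((hsupp ℓ hℓ).2 h)
  obtain ⟨k, hk⟩ := hcong ℓ hℓ hgood hgood' hℓp
  refine ⟨(W'.apOfModel ℓ : integralClosure ℤ ℂ), ?_, ?_⟩
  · rw [hfW ℓ hℓ hgood' hℓN]
    norm_cast
  · rw [← Int.cast_sub, hk]
    push_cast
    exact Ideal.mul_mem_right _ _ hpm

/-- The origin of a chain is modular of exactly its conductor level. -/
theorem exact_of_chain (h2 : TwoAdicModularityInput Good) (h59 : LiftingSquarefreeInput)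
    {W : WeierstrassCurve ℤ} (h : SwitchChain Good W) :
    Mlc1IsModularModelOfExactConductorLevel W := by
  induction h with
  | base hΔ hW hgood => exact h2 _ hΔ hW hgood
  | step p hp hΔ hW hirr hcong hkeep htres _ ih =>
    have hp' : p.Prime := by rcases hp with rfl | rfl <;> norm_num
    obtain ⟨N, hN, hsq, hsupp, hres⟩ := isResiduallyModular_of_congruent hp' hcong ih
    have : NeZero N := ⟨hN.ne'⟩
    exact h59 p hp _ hΔ hW hirr N hres hsq (fun hg hd => hkeep hg (hsupp.1 hd))
      fun h3 hd => htres h3 fun hg => hg (by subst h3; exact hsupp.1 hd)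

/-- The statement of milestone 50. -/
theorem residualThreeInput (h2 : TwoAdicModularityInput Good) (hsw : ResidualSwitchInput Good)
    (h59 : LiftingSquarefreeInput) : RT.Frey.ResidualThreeInput := by
  intro W hΔ hW h3
  obtain ⟨W', hcong, hchain⟩ := hsw W hΔ hW h3
  obtain ⟨N, hN, hsq, -, hres⟩ := isResiduallyModular_of_congruent Nat.prime_three hcong
    (exact_of_chain h2 h59 hchain)
  have hsq' : ∀ q : ℕ, q.Prime → ¬ q ^ 2 ∣ N := fun q hq h =>
    hq.not_isUnit (hsq q (by rwa [← sq]))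
  exact ⟨N, hN, hres, fun q hq _ h => hsq' q hq ((pow_dvd_pow q (by norm_num)).trans h),
    fun h => absurd h (hsq' 3 Nat.prime_three)⟩

/-- With unrestricted lifting every semistable model is modular of exactly its conductor level;
no lowering at `3` is needed, the residual level at `3` being squarefree. -/
theorem exact_of_semistable_of_lifting (h2 : TwoAdicModularityInput Good)
    (hsw : ResidualSwitchInput Good) (h59 : RT.Frey.LiftingInput) (W : WeierstrassCurve ℤ)
    (hΔ : W.Δ ≠ 0) (hW : W.IsSemistableModel) : Mlc1IsModularModelOfExactConductorLevel W := by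
  have key : ∀ p : ℕ, p = 3 ∨ p = 5 → ∀ V V' : WeierstrassCurve ℤ, V.Δ ≠ 0 → V.IsSemistableModel →
      V.ModRepIsIrreducible p → Congruent p V V' → Mlc1IsModularModelOfExactConductorLevel V' →
      Mlc1IsModularModelOfExactConductorLevel V := by
    intro p hp V V' hΔV hV hirr hcong hV'
    have hp' : p.Prime := by rcases hp with rfl | rfl <;> norm_num
    obtain ⟨N, hN, hsq, -, hres⟩ := isResiduallyModular_of_congruent hp' hcong hV'
    have : NeZero N := ⟨hN.ne'⟩
    have hsq' : ∀ q : ℕ, q.Prime → ¬ q ^ 2 ∣ N := fun q hq hd =>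
      hq.not_isUnit (hsq q (by rwa [← sq]))
    exact h59 p hp V hΔV hV hirr N hres (hsq' p hp')
      fun q hq _ hd => hsq' q hq ((pow_dvd_pow q (by norm_num)).trans hd)
  have hthree : ∀ V : WeierstrassCurve ℤ, V.Δ ≠ 0 → V.IsSemistableModel →
      V.ModRepIsIrreducible 3 → Mlc1IsModularModelOfExactConductorLevel V := by
    intro V hΔV hV h3
    obtain ⟨V', hcong, hchain⟩ := hsw V hΔV hV h3
    exact key 3 (Or.inl rfl) V V' hΔV hV h3 hcong
      (exact_of_chain h2 (liftingSquarefree_of_lifting h59) hchain)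
  rcases S51.result W hΔ hW with h3 | h5
  · exact hthree W hΔ hW h3
  · obtain ⟨W', hΔ', hW', h3', hcong⟩ := S52.result W hΔ hW h5
    exact key 5 (Or.inr rfl) W W' hΔ hW h5 hcong (hthree W' hΔ' hW' h3')

theorem freyChain_of_chain (hch : ChainInput Good) : FreyChainInput Good := fun P =>
  hch P.freyCurveInt (EC.Reduction.Frey.Δ_ne_zero P) (RT.Frey.freyCurveInt_isSemistableModel P)

/-- Every semistable model is modular of exactly its conductor level. -/
theorem exact_of_semistable (h2 : TwoAdicModularityInput Good) (hch : ChainInput Good)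
    (h59 : LiftingSquarefreeInput) (W : WeierstrassCurve ℤ) (hΔ : W.Δ ≠ 0)
    (hW : W.IsSemistableModel) : Mlc1IsModularModelOfExactConductorLevel W :=
  exact_of_chain h2 h59 (hch W hΔ hW)

/-- The statement of milestone 60, from modularity at the conductor level. -/
theorem isModular_of_exact {W : WeierstrassCurve ℤ}
    (h : Mlc1IsModularModelOfExactConductorLevel W) :
    (W.map (Int.castRingHom ℚ)).IsModular := by
  obtain ⟨N, hN, -, -, hmod⟩ := h
  exact ⟨W, ⟨1, one_smul _ _⟩, N, hN, hmod⟩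

/-- The statement of milestone 59. -/
theorem liftingInput (h2 : TwoAdicModularityInput Good) (hch : ChainInput Good)
    (h59 : LiftingSquarefreeInput) : RT.Frey.LiftingInput :=
  fun _ _ W hΔ hW _ _ _ _ _ _ => exact_of_semistable h2 hch h59 W hΔ hW

theorem eq_conductorLevel {W : WeierstrassCurve ℤ} (hΔ : W.Δ ≠ 0) {N : ℕ} (hN : 0 < N)
    (hsq : Squarefree N) (hsupp : ∀ q : ℕ, q.Prime → (q ∣ N ↔ (q : ℤ) ∣ W.Δ)) :
    N = W.conductorLevel := by
  rw [← Nat.prod_primeFactors_of_squarefree hsq,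
    ← Nat.prod_primeFactors_of_squarefree W.squarefree_conductorLevel]
  refine Finset.prod_congr (Finset.ext fun q => ?_) fun _ _ => rfl
  simp only [Nat.mem_primeFactors]
  exact ⟨fun ⟨hq, hd, _⟩ => ⟨hq, (W.prime_dvd_conductorLevel_iff hΔ hq).2 ((hsupp q hq).1 hd),
      W.conductorLevel_pos.ne'⟩,
    fun ⟨hq, hd, _⟩ => ⟨hq, (hsupp q hq).2 ((W.prime_dvd_conductorLevel_iff hΔ hq).1 hd), hN.ne'⟩⟩

/-- The statement of milestone 58. -/
theorem isModularModelOfLevel_conductorLevel
    (hexact : ∀ V : WeierstrassCurve ℤ, V.Δ ≠ 0 → V.IsSemistableModel →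
      Mlc1IsModularModelOfExactConductorLevel V)
    (W : WeierstrassCurve ℤ) (hss : W.IsSemistableModel) (N : ℕ)
    (hbad : ∀ ℓ : ℕ, ℓ.Prime → (ℓ : ℤ) ∣ W.Δ → ℓ ∣ N)
    (hN3 : ∀ q : ℕ, q.Prime → ¬ q ^ 3 ∣ N) :
    W.IsModularModelOfLevel W.conductorLevel := by
  by_cases hΔ : W.Δ = 0
  · obtain ⟨q, hq, hqN⟩ := Nat.exists_infinite_primes (N + 1)
    have hd : q ∣ N := hbad q hqN (by rw [hΔ]; exact dvd_zero _)
    rcases Nat.eq_zero_or_pos N with rfl | hN
    · exact absurd (dvd_zero _) (hN3 2 Nat.prime_two)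
    · exact absurd (Nat.le_of_dvd hN hd) (by omega)
  · obtain ⟨M, hM, hsq, hsupp, hmod⟩ := hexact W hΔ hss
    rwa [← eq_conductorLevel hΔ hM hsq hsupp]

end Fermat.Agent.Top
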