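import Fermat.Agent.RT.Lifting.Assembly
import Fermat.Agent.RT.Lifting.AtP.Conds
import Fermat.Agent.RT.Lifting.AtP.Points
import Fermat.Agent.RT.Lifting.AtP.Residual
import Fermat.Agent.RT.Lifting.AtP.PBound
import Fermat.Agent.RT.Lifting.AtP.UnitRoot
import Fermat.Agent.RT.Lifting.Selmer
import Fermat.Agent.RT.Lifting.SelmerCountProof
import Fermat.Agent.RT.Lifting.SigmaBound
import Fermat.Agent.RT.Lifting.CurveLift
import Fermat.Agent.RT.Lifting.GaloisAlgebra
import Fermat.Agent.RT.Lifting.Step.PStep
import Fermat.Agent.RT.Lifting.Step.Square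
import Fermat.Agent.RT.Lifting.Points.TypeLift
import Fermat.Agent.RT.Lifting.Points.SystemExists
import Fermat.Agent.OrdinaryAtP.NoTrivial
import Fermat.Agent.Semistable.Unipotent.Main

/-!
# The facts at a residual datum of a curve

Everything is discharged except the statement at the minimal level, `MinimalInput`.
-/

set_option autoImplicit false
set_option linter.unusedSectionVars false

noncomputable section

namespace Fermat.Agent.Top

open IsLocalRing Module
open Fermat.Agent.Deform Fermat.Agent.RT.Assembly Fermat.Agent.RT.Lifting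

/-- The statement at the minimal level for the residual data of curves. -/
def MinimalInput : Prop :=
  ∀ (p : ℕ) [Fact p.Prime], (p = 3 ∨ p = 5) →
  ∀ (O : Type) [CommRing O] [IsDomain O] [IsDiscreteValuationRing O]
    [IsAdicComplete (maximalIdeal O) O] [Finite (ResidueField O)] [CharZero O]
    [CharP (ResidueField O) p] (W : Rigid O) (ρbar : ResidualGaloisRep (ResidueField O))
    (bb : Basis (Fin 2) (ResidueField O) ρbar.V) (N₀ : ℕ) (E : WeierstrassCurve ℤ)
    (hΔ : E.Δ ≠ 0), E.IsSemistableModel → E.ModRepIsIrreducible p →
    IsResidualDatum p W ρbar bb (insert p E.Δ.natAbs.primeFactors)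
      (fun ℓ => (E.apOfModel ℓ : ResidueField O)) N₀ →
    IsResidualOf E hΔ p W → (∀ q : ℕ, q.Prime → q ∣ N₀ → (q : ℤ) ∣ E.Δ) →
    ∀ (C : CondAt O) (good : ℕ → Prop),
      MinimalProperty p W ρbar (insert p E.Δ.natAbs.primeFactors) N₀ C good

/-- **The facts at a residual datum.** -/
theorem datumProperty (h : MinimalInput) : DatumProperty := by
  intro p _ hp O _ _ _ _ _ _ _ W ρbar bb N₀ E hΔ hss hirr hdat hof hbad htres
  have hpp : p.Prime := Fact.out
  exact
    { flat_pair := isPairCond_flat ρbar p
      flat_point := pointCond_flat hpp hdat.irreducible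
      ordinary := fun hd => isDistinguishedOrdinary_of_multiplicative hdat.rb_eq hof hss
        hdat.p_ne_two hd
      ord_pair := fun hd => isPairCond_ord hd.2
      ord_point := fun hd => pointCond_ord hpp hdat.p_ne_two hdat.irreducible hd (AtP.unitRootProperty p)
        fun A M hne hA h4 hpM => by
          haveI : NeZero M := ⟨fun h0 => hne.out (by rw [h0, mul_zero])⟩
          exact OrdinaryAtP.noTrivialQuotient hdat.p_ne_two hA h4 hpM
      selmer_flat := fun _ => twSelmerInput_flat hdat hof hss hirr
      selmer_ord := fun hd => twSelmerInput_ord hdat hof hss hirr (htres hd)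
      systemExists := hdat.systemExists
      typeLift := typeLiftProperty hdat fun M _ q hq hqM hq2 =>
        Semistable.Unipotent.torsionUnipotentAt hq hqM hq2
      minimal := h p hp O W ρbar bb N₀ E hΔ hss hirr hdat hof hbad
      squareStep := squareStepProperty hdat
      pStep := pStepProperty hdat
      sigmaBound := fun C => sigmaBoundProperty p W ρbar C hdat.rb_eq
      pBound := AtP.pBoundProperty hdat.p_ne_two W ρbar
      galoisAlgebra := galoisAlgebraProperty hdat
      curveLift := curveLiftProperty hΔ hdat hof hss }

end Fermat.Agent.Top
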