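import Fermat.Agent.Top.Chain
import Fermat.Agent.RT.Frey.Top

/-!
# Fermat's Last Theorem from the inputs of the two-adic route

Milestones 4, 6, 45, 3 and 1.
-/

set_option autoImplicit false

open WeierstrassCurve WeierstrassCurve.Affine WeierstrassCurve.Affine.Point
open CuspForm

namespace Fermat.Agent.Top

variable {Good : WeierstrassCurve ℤ → Prop}

theorem exact_freyCurveInt (h2 : TwoAdicModularityInput Good) (hch : FreyChainInput Good)
    (h59 : LiftingSquarefreeInput) (P : FreyPackage) :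
    Mlc1IsModularModelOfExactConductorLevel P.freyCurveInt :=
  exact_of_chain h2 h59 (hch P)

/-- The statement of milestone 4. -/
theorem freyCurve_isModular (h2 : TwoAdicModularityInput Good) (hch : FreyChainInput Good)
    (h59 : LiftingSquarefreeInput) (P : FreyPackage) : P.freyCurve.IsModular := by
  obtain ⟨N, hN, -, -, hmod⟩ := exact_freyCurveInt h2 hch h59 P
  exact ⟨P.freyCurveInt, RT.Frey.freyCurveInt_isIntegralModel P, N, hN, hmod⟩

/-- The statement of milestone 6. -/
theorem exists_conductorLevel (h2 : TwoAdicModularityInput Good) (hch : FreyChainInput Good)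
    (h59 : LiftingSquarefreeInput) (P : FreyPackage) :
    ∃ N : ℕ, P.IsConductorLevel N ∧ P.ModularRepOfLevel N := by
  obtain ⟨N, hN, hsq, hsupp, f, hf, hfW⟩ := exact_freyCurveInt h2 hch h59 P
  obtain ⟨𝔪, h𝔪, hpm⟩ := FLTPrelim.exists_maximalIdeal_natCast_prime_mem P.pp
  refine ⟨N, ⟨hN, hsq, fun q hq hqN => by_contra fun h =>
    EC.Reduction.Frey.not_dvd_Δ P hq h ((hsupp q hq).1 hqN)⟩, f, P.freyCurveInt, 𝔪, hf,
    RT.Frey.freyCurveInt_isIntegralModel P, h𝔪, hpm, fun ℓ hℓ hgood hℓN _ => ?_⟩
  refine ⟨(P.freyCurveInt.apOfModel ℓ : integralClosure ℤ ℂ), ?_, by rw [sub_self]; exact zero_mem _⟩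
  rw [hfW ℓ hℓ hgood hℓN]
  norm_cast

/-- The statement of milestone 45 (the hypothesis of modularity is not needed). -/
theorem level_lowering_to_two (h43 : RT.Frey.LowerOddInput) (h44 : RT.Frey.LowerAtPInput)
    (h2 : TwoAdicModularityInput Good) (hch : FreyChainInput Good) (h59 : LiftingSquarefreeInput)
    (P : FreyPackage)
    (hirr : GaloisRepIsIrreducible (K := AlgebraicClosure ℚ) ℚ P.freyCurve P.p) :
    ∃ f : CuspForm (CongruenceSubgroup.Gamma0 2) 2, f ≠ 0 :=
  RT.Frey.exists_form_two h43 h44 P hirr (exists_conductorLevel h2 hch h59 P)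

/-- The statement of milestone 3. -/
theorem false_of_freyPackage (h09 : IrreducibleInput) (h43 : RT.Frey.LowerOddInput)
    (h44 : RT.Frey.LowerAtPInput) (h2 : TwoAdicModularityInput Good) (hch : FreyChainInput Good)
    (h59 : LiftingSquarefreeInput) (P : FreyPackage) : False := by
  obtain ⟨f, hf⟩ := level_lowering_to_two h43 h44 h2 hch h59 P (h09 P)
  exact hf (S07.result f)

/-- The statement of milestone 1. -/
theorem fermat (h09 : IrreducibleInput) (h43 : RT.Frey.LowerOddInput)
    (h44 : RT.Frey.LowerAtPInput) (h2 : TwoAdicModularityInput Good) (hch : FreyChainInput Good)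
    (h59 : LiftingSquarefreeInput) (n : ℕ) (hn : 3 ≤ n) (a b c : ℕ)
    (ha : 0 < a) (hb : 0 < b) (hc : 0 < c) : a ^ n + b ^ n ≠ c ^ n :=
  RT.Frey.fermat_of_noFreyPackage (false_of_freyPackage h09 h43 h44 h2 hch h59) n hn a b c ha hb hc

end Fermat.Agent.Top
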