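import Fermat.Agent.Top.Endgame
import Fermat.Agent.SwitchLocal.Good3
import Fermat.Agent.SwitchLocal.FiveInputs
import Fermat.Agent.TwoAdic.Final
import Fermat.Agent.ConductorLevel.Proved
import Fermat.Agent.S09
import Fermat.Agent.S43
import Fermat.Agent.S44

/-!
# Milestones 1, 3, 4, 6, 45, 50, 59 and 60 from modularity lifting alone

Irreducibility, level lowering, the two-adic theorem and the chains of switches are discharged.
-/

set_option autoImplicit false

noncomputable section

open WeierstrassCurve WeierstrassCurve.Affine WeierstrassCurve.Affine.Point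
open CuspForm

namespace Fermat.Agent.Top

theorem irreducibleInput : IrreducibleInput := S09.result

theorem lowerAtPInput : RT.Frey.LowerAtPInput :=
  fun P _ h₁ h₂ h₃ h₄ => S44.result P h₁ h₂ h₃ h₄

theorem lowerOddInput : RT.Frey.LowerOddInput :=
  RT.LowerQ.lowerOddInput_of_lowerAtP lowerAtPInput

/-- Every semistable model is modular of exactly its conductor level, given lifting. -/
theorem exact_of_lifting (h : LiftingSquarefreeInput) :
    ∀ W : WeierstrassCurve ℤ, W.Δ ≠ 0 → W.IsSemistableModel →
      Mlc1IsModularModelOfExactConductorLevel W :=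
  exact_of_semistable TwoAdic.twoAdicModularity SwitchLocal.chainInput h

/-- Milestone 1. -/
theorem fermat_of_lifting (h : LiftingSquarefreeInput) (n : ℕ) (hn : 3 ≤ n) (a b c : ℕ)
    (ha : 0 < a) (hb : 0 < b) (hc : 0 < c) : a ^ n + b ^ n ≠ c ^ n :=
  fermat irreducibleInput lowerOddInput lowerAtPInput TwoAdic.twoAdicModularity
    SwitchLocal.freyChainInput h n hn a b c ha hb hc

/-- Milestone 3. -/
theorem false_of_freyPackage_of_lifting (h : LiftingSquarefreeInput) (P : FreyPackage) : False :=
  false_of_freyPackage irreducibleInput lowerOddInput lowerAtPInput TwoAdic.twoAdicModularity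
    SwitchLocal.freyChainInput h P

/-- Milestone 4. -/
theorem freyCurve_isModular_of_lifting (h : LiftingSquarefreeInput) (P : FreyPackage) :
    P.freyCurve.IsModular :=
  freyCurve_isModular TwoAdic.twoAdicModularity SwitchLocal.freyChainInput h P

/-- Milestone 6. -/
theorem exists_conductorLevel_of_lifting (h : LiftingSquarefreeInput) (P : FreyPackage) :
    ∃ N : ℕ, P.IsConductorLevel N ∧ P.ModularRepOfLevel N :=
  exists_conductorLevel TwoAdic.twoAdicModularity SwitchLocal.freyChainInput h P

/-- Milestone 45. -/
theorem level_lowering_to_two_of_lifting (h : LiftingSquarefreeInput) (P : FreyPackage)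
    (hirr : GaloisRepIsIrreducible (K := AlgebraicClosure ℚ) ℚ P.freyCurve P.p) :
    ∃ f : CuspForm (CongruenceSubgroup.Gamma0 2) 2, f ≠ 0 :=
  level_lowering_to_two lowerOddInput lowerAtPInput TwoAdic.twoAdicModularity
    SwitchLocal.freyChainInput h P hirr

/-- Milestone 50. -/
theorem residualThreeInput_of_lifting (h : LiftingSquarefreeInput) : RT.Frey.ResidualThreeInput :=
  residualThreeInput TwoAdic.twoAdicModularity SwitchLocal.residualSwitchInput h

/-- Milestone 59. -/
theorem liftingInput_of_lifting (h : LiftingSquarefreeInput) : RT.Frey.LiftingInput :=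
  liftingInput TwoAdic.twoAdicModularity SwitchLocal.chainInput h

/-- Milestone 60, for integral semistable models. -/
theorem isModular_of_lifting (h : LiftingSquarefreeInput) (W : WeierstrassCurve ℤ) (hΔ : W.Δ ≠ 0)
    (hW : W.IsSemistableModel) : (W.map (Int.castRingHom ℚ)).IsModular :=
  isModular_of_exact (exact_of_lifting h W hΔ hW)

end Fermat.Agent.Top
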