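import Fermat.Agent.Top.Datum
import Fermat.Agent.Top.Root
import Fermat.Agent.RT.Lifting.Setup
import Fermat.Agent.RT.Lifting.Socle
import Fermat.Agent.RT.Lifting.CriterionFaithful
import Fermat.Agent.RT.LowerQ.Special
import Fermat.Agent.RT.LowerQ.PatchOrd
import Fermat.Agent.RT.MazurP.Endgame.LiftingInput

/-!
# Modularity lifting from the statements still to be proved

`Remaining` collects those statements. Everything else of the route is discharged.
-/

set_option autoImplicit false

noncomputable section

namespace Fermat.Agent.Top

/-- What is left to prove on the route to Fermat's Last Theorem. -/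
structure Remaining : Prop where
  minimal : MinimalInput
  tres : RT.Lifting.TresOfMultiplicative

theorem setupProperty_of_remaining
    (htres : RT.Lifting.TresOfMultiplicative) : RT.Lifting.SetupProperty :=
  RT.Lifting.setupProperty
    (fun p _ hp => RT.LowerQ.lowerQInput
      (RT.LowerQ.mazurStep (by rcases hp with rfl | rfl <;> norm_num))
      (RT.LowerQ.scalarDropProperty hp htres))
    (haveI : Fact (Nat.Prime 5) := ⟨Nat.prime_five⟩; RT.MazurP.lowerPInput 5)
    htres

theorem liftingSquarefreeInput_of_remaining (h : Remaining) : LiftingSquarefreeInput :=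
  RT.Lifting.liftingSquarefree_of_pieces (setupProperty_of_remaining h.tres)
    (datumProperty h.minimal) (RT.Lifting.faithfulProperty RT.Lifting.socleProperty)
    (fun p hp => haveI := Fact.mk hp; RT.Lifting.AtP.unitRootProperty p)
    ConductorLevel.newformRepInput ConductorLevel.newformCarayolInput

/-- Fermat's Last Theorem from the remaining statements. -/
theorem fermat_of_remaining (h : Remaining) (n : ℕ) (hn : 3 ≤ n) (a b c : ℕ)
    (ha : 0 < a) (hb : 0 < b) (hc : 0 < c) : a ^ n + b ^ n ≠ c ^ n :=
  fermat_of_lifting (liftingSquarefreeInput_of_remaining h) n hn a b c ha hb hc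

end Fermat.Agent.Top
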